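/-
MLT / Fr3 (helper9): fork of `Lib/Ihara/Hm/Part.lean` for `p = 3` (generated by a rename
script from the frozen file: only the declarations depending on `IhfLevel` / `IsUnit 3` are repeated, with
the prefix `ih`/`Ih` replaced by `jh`/`Jh`; the level hypothesis is `JhfLevel`, see `Fr3/Fr/Three.lean`).
-/
import Mathlib
import Fermat.Agent.Lib.Ihara.Hm.Comm
import Fermat.Agent.Lib.Ihara.H4.Part
import Fermat.Agent.Lib.Ihara.Fr.Main
import Fermat.Agent.Lib.MLT.Fr3.Fr.Main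
import Fermat.Agent.Lib.MLT.Fr3.Fr.Control
import Fermat.Agent.Lib.MLT.Fr3.Fr.Cyc
import Fermat.Agent.Lib.MLT.Fr3.Fr.Defs
import Fermat.Agent.Lib.MLT.Fr3.Fr.Free
import Fermat.Agent.Lib.MLT.Fr3.Fr.Ind
import Fermat.Agent.Lib.MLT.Fr3.Fr.Ops
import Fermat.Agent.Lib.MLT.Fr3.Fr.Red
import Fermat.Agent.Lib.MLT.Fr3.Fr.ToolB
import Fermat.Agent.Lib.Ihara.Hm.Part

set_option autoImplicit false
set_option linter.unusedSectionVars false
set_option linter.unusedVariables false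
set_option linter.style.haveILetI false

namespace Fermat.Agent.Ihara

open Matrix MatrixGroups CongruenceSubgroup ModularCurve ModularCurve.Period Module
open Fermat.Agent.DS Fermat.Agent.T1 Fermat.Agent.T1G Fermat.Agent.T2

/-! ### The operators -/

section Op

variable (O : Type*) [CommRing O] (M : ℕ) [NeZero M] (H : Subgroup (ZMod M)ˣ)

end Op

section Comm

variable (O : Type*) [CommRing O] [IsDomain O] [CharZero O] (M : ℕ) [NeZero M] (hM : 6 ≤ M)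
  (H : Subgroup (ZMod M)ˣ)

end Comm

/-! ### The transfer and the restriction -/

section Cor

variable (O : Type*) [CommRing O] [IsDomain O] [CharZero O] (M : ℕ) [NeZero M] (hM : 6 ≤ M)
  {H H' : Subgroup (ZMod M)ˣ} (hle : H ≤ H') {I : Type} [Fintype I]
  (τ : IhfTrans (ihfGammaH M H) (ihfGammaH M H') I)

end Cor

/-! ### The `θ`-part -/

section Part

variable (O : Type) [CommRing O] (M : ℕ) [NeZero M] (H : Subgroup (ZMod M)ˣ)

variable [IsDomain O] [IsDiscreteValuationRing O] [CharZero O]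
  [IsAdicComplete (IsLocalRing.maximalIdeal O) O] (hM : 6 ≤ M) (Ps : Set ℕ) (θ : ℕ → O)

end Part

/-! ### Functoriality of the parts, freeness and control -/

section Main

variable (O : Type) [CommRing O] [IsDomain O] [IsDiscreteValuationRing O] [CharZero O]
  [IsAdicComplete (IsLocalRing.maximalIdeal O) O] (M : ℕ) [NeZero M] (hM : 6 ≤ M)
  {H H' : Subgroup (ZMod M)ˣ} (hle : H ≤ H') {I : Type} [Fintype I]
  (τ : IhfTrans (ihfGammaH M H) (ihfGammaH M H') I) (Ps : Set ℕ) (θ : ℕ → O)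

variable {p : ℕ} (hL : JhfLevel p M H) (hpO : (p : O) ∈ IsLocalRing.maximalIdeal O)
  {ℓ₀ : ℕ} (hℓ₀ : ℓ₀.Prime) (hℓ₀M : ¬ ℓ₀ ∣ M) (hℓ₀Ps : ℓ₀ ∈ Ps)
  (hθ : IsUnit (θ ℓ₀ - ((ℓ₀ : O) + 1)))

include hM hL hpO hℓ₀ hℓ₀M hℓ₀Ps hθ in
/-- **FREENESS of the `θ`-part over `O[Δ]`**, `Δ = (ℤ/M)ˣ / H`: it has an `O`-basis `⟨d⟩ w_i` -/
theorem jhm_free :
    ∃ (n : ℕ) (w : Fin n → IhfH O O M H)
      (b : Module.Basis (Fin n × ((ZMod M)ˣ ⧸ H)) O (ihmPart O M H Ps θ)),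
      ∀ (i : Fin n) (d : (ZMod M)ˣ),
        ((b (i, (d : (ZMod M)ˣ ⧸ H)) : ihmPart O M H Ps θ) : IhfH O O M H)
          = ihmDia O M H d (w i) :=
  jhf_free hL hpO hℓ₀ hℓ₀M _ _ (ihm_summand O M H hM Ps θ hℓ₀ hℓ₀M hℓ₀Ps hθ)

include hM hL hpO hℓ₀ hℓ₀M hℓ₀Ps hθ in
/-- **CONTROL for the `θ`-parts**: the transfer maps the `θ`-part at level `Γ_H` onto the `θ`-part at
level `Γ_{H'}`, with kernel `∑_{d ∈ H'} (⟨d⟩ - 1)` of the `θ`-part -/
theorem jhm_control :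
    (∀ x' ∈ ihmPart O M H' Ps θ, ∃ x ∈ ihmPart O M H Ps θ,
      (τ.sys (ihfGammaH_mono hle)).corPar O O x = x') ∧
    (∀ x ∈ ihmPart O M H Ps θ, (τ.sys (ihfGammaH_mono hle)).corPar O O x = 0 →
      x ∈ Submodule.span O {y | ∃ d ∈ H', ∃ z ∈ ihmPart O M H Ps θ, y = ihmDia O M H d z - z}) :=
  jhf_control_main hL hle hpO hℓ₀ hℓ₀M τ _ _
    (ihm_summand O M H hM Ps θ hℓ₀ hℓ₀M hℓ₀Ps hθ) _ _
    (ihm_summand O M H' hM Ps θ hℓ₀ hℓ₀M hℓ₀Ps hθ)
    (fun x hx => ihm_cor_mem_part O M hM hle τ Ps θ hx)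
    (fun y hy => ihm_cor_mem_copart O M hM hle τ Ps θ hy)

end Main

end Fermat.Agent.Ihara
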