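/-
MLT / Fr3 (helper9): fork of `Lib/Ihara/Hm/Dia.lean` for `p = 3` (generated by a rename
script from the frozen file: only the declarations depending on `IhfLevel` / `IsUnit 3` are repeated, with
the prefix `ih`/`Ih` replaced by `jh`/`Jh`; the level hypothesis is `JhfLevel`, see `Fr3/Fr/Three.lean`).
-/
import Mathlib
import Fermat.Agent.Lib.Ihara.Hm.Part
import Fermat.Agent.Lib.MLT.Fr3.Hm.Part
import Fermat.Agent.Lib.MLT.Fr3.Fr.Control
import Fermat.Agent.Lib.MLT.Fr3.Fr.Cyc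
import Fermat.Agent.Lib.MLT.Fr3.Fr.Defs
import Fermat.Agent.Lib.MLT.Fr3.Fr.Free
import Fermat.Agent.Lib.MLT.Fr3.Fr.Ind
import Fermat.Agent.Lib.MLT.Fr3.Fr.Main
import Fermat.Agent.Lib.MLT.Fr3.Fr.Ops
import Fermat.Agent.Lib.MLT.Fr3.Fr.Red
import Fermat.Agent.Lib.MLT.Fr3.Fr.ToolB
import Fermat.Agent.Lib.Ihara.Hm.Dia

set_option autoImplicit false
set_option linter.unusedSectionVars false
set_option linter.unusedVariables false
set_option linter.style.haveILetI false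

namespace Fermat.Agent.Ihara

open Matrix MatrixGroups CongruenceSubgroup ModularCurve ModularCurve.Period Module
open Fermat.Agent.DS Fermat.Agent.T1 Fermat.Agent.T1G Fermat.Agent.T2

section Whole

variable (O : Type*) [CommRing O] (M : ℕ) [NeZero M] (H : Subgroup (ZMod M)ˣ)

end Whole

section OnPart

variable (O : Type) [CommRing O] [IsDomain O] [IsDiscreteValuationRing O] [CharZero O]
  [IsAdicComplete (IsLocalRing.maximalIdeal O) O] (M : ℕ) [NeZero M] (hM : 6 ≤ M)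
  (H : Subgroup (ZMod M)ˣ) (Ps : Set ℕ) (θ : ℕ → O)

variable {p : ℕ} (hL : JhfLevel p M H) (hpO : (p : O) ∈ IsLocalRing.maximalIdeal O)
  {ℓ₀ : ℕ} (hℓ₀ : ℓ₀.Prime) (hℓ₀M : ¬ ℓ₀ ∣ M) (hℓ₀Ps : ℓ₀ ∈ Ps)
  (hθ : IsUnit (θ ℓ₀ - ((ℓ₀ : O) + 1)))

include hL hpO hℓ₀ hℓ₀M hℓ₀Ps hθ in
/-- **FREENESS of the `θ`-part over `O[Δ]`** in the language of the action `ihmPartDia`:
a basis of the form `δ • w_i`, `δ ∈ Δ = (ℤ/M)ˣ / H` -/
theorem jhm_free' :
    ∃ (n : ℕ) (w : Fin n → ↥(ihmPart O M H Ps θ))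
      (b : Module.Basis (Fin n × ((ZMod M)ˣ ⧸ H)) O ↥(ihmPart O M H Ps θ)),
      ∀ (i : Fin n) (δ : (ZMod M)ˣ ⧸ H), b (i, δ) = ihmPartDia O M hM H Ps θ δ (w i) := by
  obtain ⟨n, w, b, hb⟩ := jhm_free O M hM Ps θ hL hpO hℓ₀ hℓ₀M hℓ₀Ps hθ
  have hw : ∀ i, w i ∈ ihmPart O M H Ps θ := by
    intro i
    have h1 := hb i 1
    rw [ihmDia_one] at h1
    have h2 : w i = ((b (i, ((1 : (ZMod M)ˣ) : (ZMod M)ˣ ⧸ H)) : ↥(ihmPart O M H Ps θ)) :
        IhfH O O M H) := h1.symm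
    rw [h2]
    exact Subtype.property _
  refine ⟨n, fun i => ⟨w i, hw i⟩, b, fun i δ => ?_⟩
  obtain ⟨d, rfl⟩ := QuotientGroup.mk_surjective δ
  apply Subtype.ext
  rw [hb i d]
  rfl

end OnPart

end Fermat.Agent.Ihara
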