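/-
MLT / Fr3 (helper9): fork of `Lib/Ihara/Hm/ChiPart.lean` for `p = 3` (generated by a rename
script from the frozen file: only the declarations depending on `IhfLevel` / `IsUnit 3` are repeated, with
the prefix `ih`/`Ih` replaced by `jh`/`Jh`; the level hypothesis is `JhfLevel`, see `Fr3/Fr/Three.lean`).
-/
import Mathlib
import Fermat.Agent.Lib.Ihara.Hm.PartT
import Fermat.Agent.Lib.MLT.Fr3.Hm.PartT
import Fermat.Agent.Lib.Ihara.Hm.Chi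
import Fermat.Agent.Lib.MLT.Fr3.Fr.Control
import Fermat.Agent.Lib.MLT.Fr3.Fr.Cyc
import Fermat.Agent.Lib.MLT.Fr3.Fr.Defs
import Fermat.Agent.Lib.MLT.Fr3.Fr.Free
import Fermat.Agent.Lib.MLT.Fr3.Fr.Ind
import Fermat.Agent.Lib.MLT.Fr3.Fr.Main
import Fermat.Agent.Lib.MLT.Fr3.Fr.Ops
import Fermat.Agent.Lib.MLT.Fr3.Fr.Red
import Fermat.Agent.Lib.MLT.Fr3.Fr.ToolB
import Fermat.Agent.Lib.MLT.Fr3.Hm.Dia
import Fermat.Agent.Lib.MLT.Fr3.Hm.Part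
import Fermat.Agent.Lib.Ihara.Hm.ChiPart

set_option autoImplicit false
set_option linter.unusedSectionVars false
set_option linter.unusedVariables false
set_option linter.style.haveILetI false

namespace Fermat.Agent.Ihara

open Matrix MatrixGroups CongruenceSubgroup ModularCurve ModularCurve.Period Module
open Fermat.Agent.DS Fermat.Agent.T1 Fermat.Agent.T1G Fermat.Agent.T2

section ChiPart

variable (O : Type) [CommRing O] [IsDomain O] [IsDiscreteValuationRing O] [CharZero O]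
  [IsAdicComplete (IsLocalRing.maximalIdeal O) O] (M : ℕ) [NeZero M] (hM : 6 ≤ M)
  (H : Subgroup (ZMod M)ˣ) (Ps : Set ℕ) (θ : ℕ → O)
  (Δ₁ : Subgroup ((ZMod M)ˣ ⧸ H)) (χ : Δ₁ →* O)

variable {p : ℕ} (hL : JhfLevel p M H) (hpO : (p : O) ∈ IsLocalRing.maximalIdeal O)
  {ℓ₀ : ℕ} (hℓ₀ : ℓ₀.Prime) (hℓ₀M : ¬ ℓ₀ ∣ M) (hℓ₀Ps : ℓ₀ ∈ Ps)
  (hθ : IsUnit (θ ℓ₀ - ((ℓ₀ : O) + 1)))

include hL hpO hℓ₀ hℓ₀M hℓ₀Ps hθ in
/-- **the `χ`-quotients of the `θ`-part are free over `O[Δ₂]`** for a complement `Δ₂` of `Δ₁`, all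
of the same rank `n` = the rank of the `θ`-part over `O[Δ]` (ONE `n` and ONE family `w` serving
every `Δ₁`, `χ`, `Δ₂`) -/
theorem jhm_chi_part_free :
    ∃ (n : ℕ) (w : Fin n → IhmPartT O M H Ps θ)
      (b : Module.Basis (Fin n × ((ZMod M)ˣ ⧸ H)) O (IhmPartT O M H Ps θ)),
      (∀ i δ, b (i, δ) = ihmPartTDia O M hM H Ps θ δ (w i)) ∧
      ∀ (Δ₁' : Subgroup ((ZMod M)ˣ ⧸ H)) (χ' : Δ₁' →* O) (Δ₂' : Subgroup ((ZMod M)ˣ ⧸ H)),
        IsCompl Δ₁' Δ₂' →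
        ∃ b' : Module.Basis (Fin n × Δ₂') O (IhmChiPart O M hM H Ps θ Δ₁' χ'),
          ∀ (i : Fin n) (g : Δ₂'), b' (i, g)
            = ihmChiDia O M hM H Ps θ Δ₁' χ' (g : (ZMod M)ˣ ⧸ H)
                (ihmChiPartMk O M hM H Ps θ Δ₁' χ' (w i)) := by
  obtain ⟨n, w, b, hb⟩ := jhm_free_T O M hM H Ps θ hL hpO hℓ₀ hℓ₀M hℓ₀Ps hθ
  refine ⟨n, w, b, hb, fun Δ₁' χ' Δ₂' hc' => ?_⟩
  exact ihm_chi_free (ihm_quot_comm M H) (ihmPartTDia O M hM H Ps θ) Δ₁' χ' w b hb Δ₂' hc'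

end ChiPart

end Fermat.Agent.Ihara
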