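/-
MLT / Fr3 (helper9): fork of `Lib/Ihara/Hm/Nil.lean` for `p = 3` (generated by a rename
script from the frozen file: only the declarations depending on `IhfLevel` / `IsUnit 3` are repeated, with
the prefix `ih`/`Ih` replaced by `jh`/`Jh`; the level hypothesis is `JhfLevel`, see `Fr3/Fr/Three.lean`).
-/
import Mathlib
import Fermat.Agent.Lib.Ihara.Hm.ChiPart
import Fermat.Agent.Lib.MLT.Fr3.Hm.ChiPart
import Fermat.Agent.Lib.MLT.Fr3.Fr.Control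
import Fermat.Agent.Lib.MLT.Fr3.Fr.Cyc
import Fermat.Agent.Lib.MLT.Fr3.Fr.Defs
import Fermat.Agent.Lib.MLT.Fr3.Fr.Free
import Fermat.Agent.Lib.MLT.Fr3.Fr.Ind
import Fermat.Agent.Lib.MLT.Fr3.Fr.Main
import Fermat.Agent.Lib.MLT.Fr3.Fr.Ops
import Fermat.Agent.Lib.MLT.Fr3.Fr.Red
import Fermat.Agent.Lib.MLT.Fr3.Fr.ToolB
import Fermat.Agent.Lib.MLT.Fr3.Hm.Dia
import Fermat.Agent.Lib.MLT.Fr3.Hm.Part
import Fermat.Agent.Lib.MLT.Fr3.Hm.PartT
import Fermat.Agent.Lib.Ihara.Hm.Nil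

set_option autoImplicit false
set_option linter.unusedSectionVars false
set_option linter.unusedVariables false
set_option linter.style.haveILetI false

namespace Fermat.Agent.Ihara

open Matrix MatrixGroups CongruenceSubgroup ModularCurve ModularCurve.Period Module
open Fermat.Agent.DS Fermat.Agent.T1 Fermat.Agent.T1G Fermat.Agent.T2

section Nil

variable (O : Type) [CommRing O] [IsDomain O] [IsDiscreteValuationRing O] [CharZero O]
  [IsAdicComplete (IsLocalRing.maximalIdeal O) O] (M : ℕ) [NeZero M] (hM : 6 ≤ M)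
  (H : Subgroup (ZMod M)ˣ) (Ps : Set ℕ) (θ : ℕ → O)

variable (Δ₁ : Subgroup ((ZMod M)ˣ ⧸ H)) (χ : Δ₁ →* O)

variable {p : ℕ} (hL : JhfLevel p M H)

include hL in
omit [NeZero M] in
/-- `Δ = (ℤ/M)ˣ / H` is a `p`-group -/
theorem jhm_quot_pow (δ : (ZMod M)ˣ ⧸ H) : ∃ n : ℕ, δ ^ p ^ n = 1 := by
  obtain ⟨d, rfl⟩ := QuotientGroup.mk_surjective δ
  obtain ⟨n, hn⟩ := hL.pgroup d
  refine ⟨n, ?_⟩
  rw [← QuotientGroup.mk_pow]
  exact (QuotientGroup.eq_one_iff _).mpr hn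

include hL in
theorem jhmPartTDia_pow (δ : (ZMod M)ˣ ⧸ H) :
    ∃ n : ℕ, ihmPartTDia O M hM H Ps θ δ ^ p ^ n = 1 := by
  obtain ⟨n, hn⟩ := jhm_quot_pow M H hL δ
  exact ⟨n, by rw [← map_pow, hn, map_one]⟩

include hL in
theorem jhmChiDia_pow (δ : (ZMod M)ˣ ⧸ H) :
    ∃ n : ℕ, ihmChiDia O M hM H Ps θ Δ₁ χ δ ^ p ^ n = 1 := by
  obtain ⟨n, hn⟩ := jhm_quot_pow M H hL δ
  exact ⟨n, by rw [← map_pow, hn, map_one]⟩

end Nil

end Fermat.Agent.Ihara
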