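/-
MLT / Fr3 (helper9): fork of `Lib/Ihara/Hm/Ctrl.lean` for `p = 3` (generated by a rename
script from the frozen file: only the declarations depending on `IhfLevel` / `IsUnit 3` are repeated, with
the prefix `ih`/`Ih` replaced by `jh`/`Jh`; the level hypothesis is `JhfLevel`, see `Fr3/Fr/Three.lean`).
-/
import Mathlib
import Fermat.Agent.Lib.Ihara.Hm.Nil
import Fermat.Agent.Lib.MLT.Fr3.Hm.Nil
import Fermat.Agent.Lib.Ihara.Hm.Top
import Fermat.Agent.Lib.MLT.Fr3.Hm.Top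
import Fermat.Agent.Lib.MLT.Fr3.Fr.Control
import Fermat.Agent.Lib.MLT.Fr3.Fr.Cyc
import Fermat.Agent.Lib.MLT.Fr3.Fr.Defs
import Fermat.Agent.Lib.MLT.Fr3.Fr.Free
import Fermat.Agent.Lib.MLT.Fr3.Fr.Ind
import Fermat.Agent.Lib.MLT.Fr3.Fr.Main
import Fermat.Agent.Lib.MLT.Fr3.Fr.Ops
import Fermat.Agent.Lib.MLT.Fr3.Fr.Red
import Fermat.Agent.Lib.MLT.Fr3.Fr.ToolB
import Fermat.Agent.Lib.MLT.Fr3.Hm.ChiPart
import Fermat.Agent.Lib.MLT.Fr3.Hm.Dia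
import Fermat.Agent.Lib.MLT.Fr3.Hm.Part
import Fermat.Agent.Lib.MLT.Fr3.Hm.PartT
import Fermat.Agent.Lib.Ihara.Hm.Ctrl

set_option autoImplicit false
set_option linter.unusedSectionVars false
set_option linter.unusedVariables false
set_option linter.style.haveILetI false

namespace Fermat.Agent.Ihara

open Matrix MatrixGroups CongruenceSubgroup ModularCurve ModularCurve.Period Module
open Fermat.Agent.DS Fermat.Agent.T1 Fermat.Agent.T1G Fermat.Agent.T2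

section Ctrl

variable (O : Type) [CommRing O] [IsDomain O] [IsDiscreteValuationRing O] [CharZero O]
  [IsAdicComplete (IsLocalRing.maximalIdeal O) O] (M : ℕ) [NeZero M] (hM : 6 ≤ M)
  {H H' : Subgroup (ZMod M)ˣ} (hle : H ≤ H') {I : Type} [Fintype I]
  (τ : IhfTrans (ihfGammaH M H) (ihfGammaH M H') I) (Ps : Set ℕ) (θ : ℕ → O)

variable {p : ℕ} (hL : JhfLevel p M H) (hpO : (p : O) ∈ IsLocalRing.maximalIdeal O)
  {ℓ₀ : ℕ} (hℓ₀ : ℓ₀.Prime) (hℓ₀M : ¬ ℓ₀ ∣ M) (hℓ₀Ps : ℓ₀ ∈ Ps)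
  (hθ : IsUnit (θ ℓ₀ - ((ℓ₀ : O) + 1)))

include hL hpO hℓ₀ hℓ₀M hℓ₀Ps hθ in
theorem jhmCorT_surjective : Function.Surjective (ihmCorT O M hM hle τ Ps θ) := by
  intro y
  obtain ⟨x, hx, e⟩ := (jhm_control O M hM hle τ Ps θ hL hpO hℓ₀ hℓ₀M hℓ₀Ps hθ).1 _
    (ihmPartTIncl_mem O M H' Ps θ y)
  refine ⟨(ihmPartTEquiv O M H Ps θ).symm ⟨x, hx⟩, ?_⟩
  apply ihmPartTIncl_injective
  rw [ihmCorT_incl]
  exact e

include hL hpO hℓ₀ hℓ₀M hℓ₀Ps hθ in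
/-- **the kernel of the transfer on the `θ`-part is the augmentation submodule of `H'/H`** -/
theorem jhmCorT_ker :
    LinearMap.ker (ihmCorT O M hM hle τ Ps θ)
      = ihmChiSub (ihmPartTDia O M hM H Ps θ) (ihmSubQ M H H') (1 : ihmSubQ M H H' →* O) := by
  apply le_antisymm
  · intro x hx
    have h0 : (τ.sys (ihfGammaH_mono hle)).corPar O O (ihmPartTIncl O M H Ps θ x) = 0 := by
      rw [← ihmCorT_incl O M hM hle τ Ps θ x, LinearMap.mem_ker.mp hx, map_zero]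
    have h1 := (jhm_control O M hM hle τ Ps θ hL hpO hℓ₀ hℓ₀M hℓ₀Ps hθ).2 _
      (ihmPartTIncl_mem O M H Ps θ x) h0
    -- transport the span along the inclusion
    have h2 : Submodule.span O {y | ∃ d ∈ H', ∃ z ∈ ihmPart O M H Ps θ,
        y = ihmDia O M H d z - z}
        ≤ Submodule.map (ihmPartTIncl O M H Ps θ)
          (ihmChiSub (ihmPartTDia O M hM H Ps θ) (ihmSubQ M H H') (1 : ihmSubQ M H H' →* O)) := by
      refine Submodule.span_le.mpr ?_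
      rintro _ ⟨d, hd, z, hz, rfl⟩
      refine ⟨ihmPartTDia O M hM H Ps θ (d : (ZMod M)ˣ ⧸ H)
        ((ihmPartTEquiv O M H Ps θ).symm ⟨z, hz⟩) - (ihmPartTEquiv O M H Ps θ).symm ⟨z, hz⟩, ?_, ?_⟩
      · have := ihm_chi_sub_mem (ihmPartTDia O M hM H Ps θ) (ihmSubQ M H H')
          (1 : ihmSubQ M H H' →* O) ⟨(d : (ZMod M)ˣ ⧸ H), ihm_mem_subQ M hd⟩
          ((ihmPartTEquiv O M H Ps θ).symm ⟨z, hz⟩)
        rw [MonoidHom.one_apply, one_smul] at this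
        exact this
      · rw [map_sub, ihmPartTIncl_dia]
        rfl
    obtain ⟨x', hx', e⟩ := h2 h1
    rw [← ihmPartTIncl_injective O M H Ps θ e]
    exact hx'
  · refine Submodule.span_le.mpr ?_
    rintro _ ⟨⟨δ, d, hd, rfl⟩, m, rfl⟩
    rw [SetLike.mem_coe, LinearMap.mem_ker, MonoidHom.one_apply, one_smul, map_sub]
    show ihmCorT O M hM hle τ Ps θ (ihmPartTDia O M hM H Ps θ (d : (ZMod M)ˣ ⧸ H) m) - _ = 0
    rw [ihmCorT_dia, sub_eq_zero]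
    have h1 : ((d : (ZMod M)ˣ) : (ZMod M)ˣ ⧸ H') = 1 := (QuotientGroup.eq_one_iff _).mpr hd
    rw [h1, map_one]
    rfl

include hL hpO hℓ₀ hℓ₀M hℓ₀Ps hθ in
/-- **CONTROL as an isomorphism**: `(θ-part at Γ_H)/(δ - 1 : δ ∈ H'/H) ≃ θ-part at Γ_{H'}` -/
theorem jhm_exists_ctrlEquiv :
    ∃ e : IhmChi (ihmPartTDia O M hM H Ps θ) (ihmSubQ M H H') (1 : ihmSubQ M H H' →* O)
        ≃ₗ[O] IhmPartT O M H' Ps θ,
      ∀ x : IhmPartT O M H Ps θ, e (Submodule.Quotient.mk x) = ihmCorT O M hM hle τ Ps θ x := by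
  have hk := jhmCorT_ker O M hM hle τ Ps θ hL hpO hℓ₀ hℓ₀M hℓ₀Ps hθ
  have hs := jhmCorT_surjective O M hM hle τ Ps θ hL hpO hℓ₀ hℓ₀M hℓ₀Ps hθ
  refine ⟨(Submodule.quotEquivOfEq _ _ hk.symm).trans
    ((ihmCorT O M hM hle τ Ps θ).quotKerEquivOfSurjective hs), fun x => ?_⟩
  rfl

end Ctrl

end Fermat.Agent.Ihara
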