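/-
MLT / Fr3 (helper9): fork of `Lib/Ihara/Hm/Top.lean` for `p = 3` (generated by a rename
script from the frozen file: only the declarations depending on `IhfLevel` / `IsUnit 3` are repeated, with
the prefix `ih`/`Ih` replaced by `jh`/`Jh`; the level hypothesis is `JhfLevel`, see `Fr3/Fr/Three.lean`).
-/
import Mathlib
import Fermat.Agent.Lib.Ihara.Hm.Part
import Fermat.Agent.Lib.MLT.Fr3.Hm.Part
import Fermat.Agent.Lib.Ihara.H4.TwBetti
import Fermat.Agent.Lib.MLT.Fr3.Fr.Control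
import Fermat.Agent.Lib.MLT.Fr3.Fr.Cyc
import Fermat.Agent.Lib.MLT.Fr3.Fr.Defs
import Fermat.Agent.Lib.MLT.Fr3.Fr.Free
import Fermat.Agent.Lib.MLT.Fr3.Fr.Ind
import Fermat.Agent.Lib.MLT.Fr3.Fr.Main
import Fermat.Agent.Lib.MLT.Fr3.Fr.Ops
import Fermat.Agent.Lib.MLT.Fr3.Fr.Red
import Fermat.Agent.Lib.MLT.Fr3.Fr.ToolB
import Fermat.Agent.Lib.Ihara.Hm.Top

set_option autoImplicit false
set_option linter.unusedSectionVars false
set_option linter.unusedVariables false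
set_option linter.style.haveILetI false

namespace Fermat.Agent.Ihara

open Matrix MatrixGroups CongruenceSubgroup ModularCurve ModularCurve.Period Module
open Fermat.Agent.DS Fermat.Agent.T1 Fermat.Agent.T1G Fermat.Agent.T2

/-! ### Restriction along an equality of subgroups -/

section Eq

variable {Γ Γ' : Subgroup SL(2, ℤ)} (hΓ : Γ = Γ') (R : Type*) [Semiring R] (A : Type*)
  [AddCommGroup A] [Module R A]

end Eq

/-! ### `T_ℓ` with the two systems of representatives -/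

section TwoReps

variable {M : ℕ} [NeZero M] {ℓ : ℕ} (hℓ : ℓ.Prime) (hℓM : ¬ ℓ ∣ M)

end TwoReps

/-! ### The top level -/

section Top

variable (O : Type*) [CommRing O] (M : ℕ) [NeZero M]

end Top

section TopPart

variable (O : Type) [CommRing O] [IsLocalRing O] (M : ℕ) [NeZero M] (Ps : Set ℕ) (θ : ℕ → O)

end TopPart

/-! ### Control down to `Γ₀(M)` -/

section ControlTop

variable (O : Type) [CommRing O] [IsDomain O] [IsDiscreteValuationRing O] [CharZero O]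
  [IsAdicComplete (IsLocalRing.maximalIdeal O) O] (M : ℕ) [NeZero M] (hM : 6 ≤ M)
  {H : Subgroup (ZMod M)ˣ} {I : Type} [Fintype I]
  (τ : IhfTrans (ihfGammaH M H) (ihfGammaH M (⊤ : Subgroup (ZMod M)ˣ)) I)
  (Ps : Set ℕ) (θ : ℕ → O)

variable {p : ℕ} (hL : JhfLevel p M H) (hpO : (p : O) ∈ IsLocalRing.maximalIdeal O)
  {ℓ₀ : ℕ} (hℓ₀ : ℓ₀.Prime) (hℓ₀M : ¬ ℓ₀ ∣ M) (hℓ₀Ps : ℓ₀ ∈ Ps)
  (hθ : IsUnit (θ ℓ₀ - ((ℓ₀ : O) + 1)))

include hM hL hpO hℓ₀ hℓ₀M hℓ₀Ps hθ in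
/-- **CONTROL down to `Γ₀(M)`**: the transfer maps the `θ`-part at level `Γ_H(M)` onto helper3's
`ih4Part O M Ps θ` at level `Γ₀(M)`, with kernel `∑_d (⟨d⟩ - 1)` of the `θ`-part -/
theorem jhm_control_top :
    (∀ x' ∈ ih4Part O M Ps θ, ∃ x ∈ ihmPart O M H Ps θ, ihmCorTop O M τ x = x') ∧
    (∀ x ∈ ihmPart O M H Ps θ, ihmCorTop O M τ x = 0 →
      x ∈ Submodule.span O {y | ∃ d : (ZMod M)ˣ, ∃ z ∈ ihmPart O M H Ps θ,
        y = ihmDia O M H d z - z}) := by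
  obtain ⟨h1, h2⟩ := jhm_control O M hM le_top τ Ps θ hL hpO hℓ₀ hℓ₀M hℓ₀Ps hθ
  refine ⟨?_, ?_⟩
  · intro x' hx'
    have hx'' : (ihmTop O M).symm x' ∈ ihmPart O M ⊤ Ps θ := by
      rw [← ihmTop_mem_part, LinearEquiv.apply_symm_apply]
      exact hx'
    obtain ⟨x, hx, e⟩ := h1 _ hx''
    refine ⟨x, hx, ?_⟩
    unfold ihmCorTop
    rw [LinearMap.comp_apply, e]
    exact (ihmTop O M).apply_symm_apply x'
  · intro x hx h0
    have h0' : (τ.sys (ihfGammaH_mono le_top)).corPar O O x = 0 := by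
      apply (ihmTop O M).injective
      rw [map_zero]
      exact h0
    have h3 := h2 x hx h0'
    refine Submodule.span_mono ?_ h3
    rintro y ⟨d, -, z, hz, rfl⟩
    exact ⟨d, z, hz, rfl⟩

end ControlTop

end Fermat.Agent.Ihara
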