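/-
MLT / Fr3 (helper9): fork of `Lib/Ihara/Hm/Rank.lean` for `p = 3` (generated by a rename
script from the frozen file: only the declarations depending on `IhfLevel` / `IsUnit 3` are repeated, with
the prefix `ih`/`Ih` replaced by `jh`/`Jh`; the level hypothesis is `JhfLevel`, see `Fr3/Fr/Three.lean`).
-/
import Mathlib
import Fermat.Agent.Lib.Ihara.Hm.Ctrl
import Fermat.Agent.Lib.MLT.Fr3.Hm.Ctrl
import Fermat.Agent.Lib.MLT.Fr3.Fr.Control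
import Fermat.Agent.Lib.MLT.Fr3.Fr.Cyc
import Fermat.Agent.Lib.MLT.Fr3.Fr.Defs
import Fermat.Agent.Lib.MLT.Fr3.Fr.Free
import Fermat.Agent.Lib.MLT.Fr3.Fr.Ind
import Fermat.Agent.Lib.MLT.Fr3.Fr.Main
import Fermat.Agent.Lib.MLT.Fr3.Fr.Ops
import Fermat.Agent.Lib.MLT.Fr3.Fr.Red
import Fermat.Agent.Lib.MLT.Fr3.Fr.ToolB
import Fermat.Agent.Lib.MLT.Fr3.Hm.ChiPart
import Fermat.Agent.Lib.MLT.Fr3.Hm.Dia
import Fermat.Agent.Lib.MLT.Fr3.Hm.Nil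
import Fermat.Agent.Lib.MLT.Fr3.Hm.Part
import Fermat.Agent.Lib.MLT.Fr3.Hm.PartT
import Fermat.Agent.Lib.MLT.Fr3.Hm.Top
import Fermat.Agent.Lib.Ihara.Hm.Rank

set_option autoImplicit false
set_option linter.unusedSectionVars false
set_option linter.unusedVariables false
set_option linter.style.haveILetI false

namespace Fermat.Agent.Ihara

open Matrix MatrixGroups CongruenceSubgroup ModularCurve ModularCurve.Period Module
open Fermat.Agent.DS Fermat.Agent.T1 Fermat.Agent.T1G Fermat.Agent.T2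

section Rank

variable (O : Type) [CommRing O] [IsDomain O] [IsDiscreteValuationRing O] [CharZero O]
  [IsAdicComplete (IsLocalRing.maximalIdeal O) O] (M : ℕ) [NeZero M] (hM : 6 ≤ M)
  (H : Subgroup (ZMod M)ˣ) (Ps : Set ℕ) (θ : ℕ → O)

variable {p : ℕ} (hL : JhfLevel p M H) (hpO : (p : O) ∈ IsLocalRing.maximalIdeal O)
  {ℓ₀ : ℕ} (hℓ₀ : ℓ₀.Prime) (hℓ₀M : ¬ ℓ₀ ∣ M) (hℓ₀Ps : ℓ₀ ∈ Ps)
  (hθ : IsUnit (θ ℓ₀ - ((ℓ₀ : O) + 1)))

include hM hL hpO hℓ₀ hℓ₀M hℓ₀Ps hθ in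
/-- **the number of `O[Δ]`-generators of the `θ`-part at level `Γ_H(M)` is the `O`-rank of the
`θ`-part at level `Γ₀(M)`** -/
theorem jhm_rank_eq {n : ℕ} (w : Fin n → IhmPartT O M H Ps θ)
    (b : Module.Basis (Fin n × ((ZMod M)ˣ ⧸ H)) O (IhmPartT O M H Ps θ))
    (hb : ∀ i δ, b (i, δ) = ihmPartTDia O M hM H Ps θ δ (w i)) :
    n = Module.finrank O ↥(ih4Part O M Ps θ) := by
  classical
  haveI : Fintype ((ZMod M)ˣ ⧸ H) := Fintype.ofFinite _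
  obtain ⟨e, -⟩ := jhm_exists_ctrlEquiv O M hM (le_top : H ≤ ⊤) (ihfTransTop H) Ps θ hL hpO hℓ₀
    hℓ₀M hℓ₀Ps hθ
  obtain ⟨b', -⟩ := ihm_chi_basis (ihm_quot_comm M H) (ihmPartTDia O M hM H Ps θ)
    (ihmSubQ M H ⊤) (1 : ihmSubQ M H ⊤ →* O) w b hb (fun x => Quotient.out x)
    (fun x => QuotientGroup.out_eq' x)
  have htop : ihmSubQ M H ⊤ = ⊤ := by
    rw [eq_top_iff]
    intro δ _
    obtain ⟨d, rfl⟩ := QuotientGroup.mk_surjective δ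
    exact ihm_mem_subQ M (Subgroup.mem_top d)
  haveI : Subsingleton (((ZMod M)ˣ ⧸ H) ⧸ ihmSubQ M H ⊤) := by
    rw [htop]
    exact QuotientGroup.subsingleton_quotient_top
  haveI : Fintype (((ZMod M)ˣ ⧸ H) ⧸ ihmSubQ M H ⊤) := Fintype.ofFinite _
  have h1 : Module.finrank O (IhmChi (ihmPartTDia O M hM H Ps θ) (ihmSubQ M H ⊤)
      (1 : ihmSubQ M H ⊤ →* O)) = n := by
    rw [Module.finrank_eq_card_basis b', Fintype.card_prod, Fintype.card_fin]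
    have : Fintype.card (((ZMod M)ˣ ⧸ H) ⧸ ihmSubQ M H ⊤) = 1 :=
      Fintype.card_eq_one_iff.mpr ⟨((1 : (ZMod M)ˣ ⧸ H) : _ ⧸ ihmSubQ M H ⊤),
        fun y => Subsingleton.elim _ _⟩
    rw [this, mul_one]
  rw [← ihm_finrank_top O M Ps θ, ← e.finrank_eq, h1]

include hM hL hpO hℓ₀ hℓ₀M hℓ₀Ps hθ in
/-- **the `θ`-part at level `Γ_H(M)` is free over `O[Δ]` of rank `finrank O (ih4Part O M Ps θ)`** -/
theorem jhm_free_rank :
    ∃ (w : Fin (Module.finrank O ↥(ih4Part O M Ps θ)) → IhmPartT O M H Ps θ)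
      (b : Module.Basis (Fin (Module.finrank O ↥(ih4Part O M Ps θ)) × ((ZMod M)ˣ ⧸ H)) O
        (IhmPartT O M H Ps θ)),
      ∀ i δ, b (i, δ) = ihmPartTDia O M hM H Ps θ δ (w i) := by
  obtain ⟨n, w, b, hb⟩ := jhm_free_T O M hM H Ps θ hL hpO hℓ₀ hℓ₀M hℓ₀Ps hθ
  have hn := jhm_rank_eq O M hM H Ps θ hL hpO hℓ₀ hℓ₀M hℓ₀Ps hθ w b hb
  subst hn
  exact ⟨w, b, hb⟩

include hM hL hpO hℓ₀ hℓ₀M hℓ₀Ps hθ in
/-- the `θ`-part at level `Γ_H(M)` vanishes iff the `θ`-part at level `Γ₀(M)` does -/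
theorem jhm_part_eq_bot_iff : ihmPart O M H Ps θ = ⊥ ↔ ih4Part O M Ps θ = ⊥ := by
  classical
  haveI : Fintype ((ZMod M)ˣ ⧸ H) := Fintype.ofFinite _
  obtain ⟨n, w, b, hb⟩ := jhm_free_T O M hM H Ps θ hL hpO hℓ₀ hℓ₀M hℓ₀Ps hθ
  obtain ⟨e, -⟩ := jhm_exists_ctrlEquiv O M hM (le_top : H ≤ ⊤) (ihfTransTop H) Ps θ hL hpO hℓ₀
    hℓ₀M hℓ₀Ps hθ
  obtain ⟨b', -⟩ := ihm_chi_basis (ihm_quot_comm M H) (ihmPartTDia O M hM H Ps θ)
    (ihmSubQ M H ⊤) (1 : ihmSubQ M H ⊤ →* O) w b hb (fun x => Quotient.out x)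
    (fun x => QuotientGroup.out_eq' x)
  rw [← Submodule.subsingleton_iff_eq_bot, ← Submodule.subsingleton_iff_eq_bot]
  have h1 : Subsingleton ↥(ihmPart O M H Ps θ) ↔ IsEmpty (Fin n × ((ZMod M)ˣ ⧸ H)) := by
    show Subsingleton (IhmPartT O M H Ps θ) ↔ _
    exact ihm_basis_subsingleton_iff O b
  have h2 : Subsingleton ↥(ih4Part O M Ps θ)
      ↔ IsEmpty (Fin n × (((ZMod M)ˣ ⧸ H) ⧸ ihmSubQ M H ⊤)) := by
    rw [← ihm_basis_subsingleton_iff O b']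
    exact ⟨fun h => (e.trans (ihmTopPart O M Ps θ)).toEquiv.subsingleton,
      fun h => (e.trans (ihmTopPart O M Ps θ)).symm.toEquiv.subsingleton⟩
  rw [h1, h2, isEmpty_prod, isEmpty_prod]
  have h3 : ¬ IsEmpty ((ZMod M)ˣ ⧸ H) := not_isEmpty_iff.mpr ⟨1⟩
  have h4 : ¬ IsEmpty (((ZMod M)ˣ ⧸ H) ⧸ ihmSubQ M H ⊤) :=
    not_isEmpty_iff.mpr ⟨QuotientGroup.mk 1⟩
  tauto

end Rank

end Fermat.Agent.Ihara
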