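/-
MLT / Fr3 (helper9): fork of `Lib/Ihara/Hm/Lvl.lean` for `p = 3` (generated by a rename
script from the frozen file: only the declarations depending on `IhfLevel` / `IsUnit 3` are repeated, with
the prefix `ih`/`Ih` replaced by `jh`/`Jh`; the level hypothesis is `JhfLevel`, see `Fr3/Fr/Three.lean`).
-/
import Mathlib
import Fermat.Agent.Lib.Ihara.Hm.Rank
import Fermat.Agent.Lib.MLT.Fr3.Hm.Rank
import Fermat.Agent.Lib.MLT.Fr3.Fr.Control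
import Fermat.Agent.Lib.MLT.Fr3.Fr.Cyc
import Fermat.Agent.Lib.MLT.Fr3.Fr.Defs
import Fermat.Agent.Lib.MLT.Fr3.Fr.Free
import Fermat.Agent.Lib.MLT.Fr3.Fr.Ind
import Fermat.Agent.Lib.MLT.Fr3.Fr.Main
import Fermat.Agent.Lib.MLT.Fr3.Fr.Ops
import Fermat.Agent.Lib.MLT.Fr3.Fr.Red
import Fermat.Agent.Lib.MLT.Fr3.Fr.ToolB
import Fermat.Agent.Lib.MLT.Fr3.Hm.ChiPart
import Fermat.Agent.Lib.MLT.Fr3.Hm.Ctrl
import Fermat.Agent.Lib.MLT.Fr3.Hm.Dia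
import Fermat.Agent.Lib.MLT.Fr3.Hm.Nil
import Fermat.Agent.Lib.MLT.Fr3.Hm.Part
import Fermat.Agent.Lib.MLT.Fr3.Hm.PartT
import Fermat.Agent.Lib.MLT.Fr3.Hm.Top
import Fermat.Agent.Lib.Ihara.Hm.Lvl

set_option autoImplicit false
set_option linter.unusedSectionVars false
set_option linter.unusedVariables false
set_option linter.style.haveILetI false

namespace Fermat.Agent.Ihara

open Matrix MatrixGroups CongruenceSubgroup ModularCurve ModularCurve.Period Module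
open Fermat.Agent.DS Fermat.Agent.T1 Fermat.Agent.T1G Fermat.Agent.T2

section Lvl

variable (O : Type) [CommRing O] [IsDomain O] [IsDiscreteValuationRing O] [CharZero O]
  [IsAdicComplete (IsLocalRing.maximalIdeal O) O] (M : ℕ) [NeZero M] (hM : 6 ≤ M)
  (H : Subgroup (ZMod M)ˣ) (Ps : Set ℕ) (θ : ℕ → O)
  {p : ℕ} (hL : JhfLevel p M H) (hpO : (p : O) ∈ IsLocalRing.maximalIdeal O)
  {ℓ₀ : ℕ} (hℓ₀ : ℓ₀.Prime) (hℓ₀M : ¬ ℓ₀ ∣ M) (hℓ₀Ps : ℓ₀ ∈ Ps)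
  (hθ : IsUnit (θ ℓ₀ - ((ℓ₀ : O) + 1)))
  (N : ℕ) [NeZero N] (Q : List ℕ) (hMQ : M = Q.foldl (· * ·) N) (hnd : Q.Nodup)
  (hQ : ∀ r ∈ Q, r.Prime ∧ ¬ r ∣ N) (hPsQ : ∀ r ∈ Q, r ∈ Ps) (bq : ℕ → O)
  (hθQ : ∀ r ∈ Q, θ r * bq r = ((r : ℕ) : O) ∧ IsUnit (θ r) ∧ IsUnit (θ r - bq r) ∧
    IsUnit (1 - θ r ^ 2))

include hM hL hpO hℓ₀ hℓ₀M hℓ₀Ps hθ hMQ hnd hQ hPsQ hθQ in
/-- **[LVL]**: the `θ`-part at level `Γ_H(N · ∏ Q)` and all its `χ`-quotients are free, over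
`O[Δ]` resp. `O[Δ₂]`, of rank `d = finrank O (ih4Part O N Ps (ih4Shift O θ bq Q))`, on ONE family
of generators `w` -/
theorem jhm_lvl_free :
    ∃ (w : Fin (Module.finrank O ↥(ih4Part O N Ps (ih4Shift O θ bq Q))) → IhmPartT O M H Ps θ)
      (b : Module.Basis (Fin (Module.finrank O ↥(ih4Part O N Ps (ih4Shift O θ bq Q)))
        × ((ZMod M)ˣ ⧸ H)) O (IhmPartT O M H Ps θ)),
      (∀ i δ, b (i, δ) = ihmPartTDia O M hM H Ps θ δ (w i)) ∧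
      ∀ (Δ₁' : Subgroup ((ZMod M)ˣ ⧸ H)) (χ' : Δ₁' →* O) (Δ₂' : Subgroup ((ZMod M)ˣ ⧸ H)),
        IsCompl Δ₁' Δ₂' →
        ∃ b' : Module.Basis (Fin (Module.finrank O ↥(ih4Part O N Ps (ih4Shift O θ bq Q))) × Δ₂') O
            (IhmChiPart O M hM H Ps θ Δ₁' χ'),
          ∀ i (g : Δ₂'), b' (i, g)
            = ihmChiDia O M hM H Ps θ Δ₁' χ' (g : (ZMod M)ˣ ⧸ H)
                (ihmChiPartMk O M hM H Ps θ Δ₁' χ' (w i)) := by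
  have hr := ih4_tw_list_finrank O Q N M hMQ hnd hQ Ps hPsQ θ bq hθQ
  rw [← hr]
  obtain ⟨w, b, hb⟩ := jhm_free_rank O M hM H Ps θ hL hpO hℓ₀ hℓ₀M hℓ₀Ps hθ
  refine ⟨w, b, hb, fun Δ₁' χ' Δ₂' hc' => ?_⟩
  exact ihm_chi_free (ihm_quot_comm M H) (ihmPartTDia O M hM H Ps θ) Δ₁' χ' w b hb Δ₂' hc'

include hM hL hpO hℓ₀ hℓ₀M hℓ₀Ps hθ hMQ hnd hQ hPsQ hθQ in
/-- **[OLD0], first half**: the `θ`-part at level `Γ_H(N · ∏ Q)` vanishes as soon as the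
`θ₀`-part at the base level `Γ₀(N)` does -/
theorem jhm_lvl_eq_bot_iff :
    ihmPart O M H Ps θ = ⊥ ↔ ih4Part O N Ps (ih4Shift O θ bq Q) = ⊥ := by
  rw [jhm_part_eq_bot_iff O M hM H Ps θ hL hpO hℓ₀ hℓ₀M hℓ₀Ps hθ]
  exact ih4_tw_list_eq_bot_iff O Q N M hMQ hnd hQ Ps hPsQ θ bq hθQ

include hM hL hpO hℓ₀ hℓ₀M hℓ₀Ps hθ hMQ hnd hQ hPsQ hθQ in
/-- the instances needed on the `χ`-quotients: free (hence torsion-free), and nontrivial as soon as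
the `θ₀`-part at the base level is non-zero -/
theorem jhm_lvl_chi_inst (Δ₁' : Subgroup ((ZMod M)ˣ ⧸ H)) (χ' : Δ₁' →* O)
    (Δ₂' : Subgroup ((ZMod M)ˣ ⧸ H)) (hc' : IsCompl Δ₁' Δ₂') :
    Module.Free O (IhmChiPart O M hM H Ps θ Δ₁' χ') ∧
      (ih4Part O N Ps (ih4Shift O θ bq Q) ≠ ⊥ → Nontrivial (IhmChiPart O M hM H Ps θ Δ₁' χ')) := by
  obtain ⟨w, b, hb, h2⟩ := jhm_lvl_free O M hM H Ps θ hL hpO hℓ₀ hℓ₀M hℓ₀Ps hθ N Q hMQ hnd hQ hPsQ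
    bq hθQ
  obtain ⟨b', -⟩ := h2 Δ₁' χ' Δ₂' hc'
  refine ⟨Module.Free.of_basis b', fun hne => ?_⟩
  have hpos : 0 < Module.finrank O ↥(ih4Part O N Ps (ih4Shift O θ bq Q)) := by
    by_contra h0
    have h0' : Module.finrank O ↥(ih4Part O N Ps (ih4Shift O θ bq Q)) = 0 := by omega
    apply hne
    rw [← jhm_lvl_eq_bot_iff O M hM H Ps θ hL hpO hℓ₀ hℓ₀M hℓ₀Ps hθ N Q hMQ hnd hQ hPsQ bq hθQ,
      ← Submodule.subsingleton_iff_eq_bot]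
    haveI : IsEmpty (Fin (Module.finrank O ↥(ih4Part O N Ps (ih4Shift O θ bq Q)))
        × ((ZMod M)ˣ ⧸ H)) := by
      rw [h0']
      exact Prod.isEmpty_left
    show Subsingleton (IhmPartT O M H Ps θ)
    exact b.repr.toEquiv.subsingleton
  exact ⟨⟨b' (⟨0, hpos⟩, 1), 0, b'.ne_zero _⟩⟩

end Lvl

end Fermat.Agent.Ihara
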