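/-
MLT / Fr3 (helper9): fork of `Lib/Ihara/Hm/LvlTW.lean` for `p = 3` (generated by a rename
script from the frozen file: only the declarations depending on `IhfLevel` / `IsUnit 3` are repeated, with
the prefix `ih`/`Ih` replaced by `jh`/`Jh`; the level hypothesis is `JhfLevel`, see `Fr3/Fr/Three.lean`).
-/
import Mathlib
import Fermat.Agent.Lib.Ihara.Hm.Lvl
import Fermat.Agent.Lib.MLT.Fr3.Hm.Lvl
import Fermat.Agent.Lib.Ihara.Hm.NonEis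
import Fermat.Agent.Lib.Ihara.Hm.ThetaQ
import Fermat.Agent.Lib.MLT.Fr3.Fr.Control
import Fermat.Agent.Lib.MLT.Fr3.Fr.Cyc
import Fermat.Agent.Lib.MLT.Fr3.Fr.Defs
import Fermat.Agent.Lib.MLT.Fr3.Fr.Free
import Fermat.Agent.Lib.MLT.Fr3.Fr.Ind
import Fermat.Agent.Lib.MLT.Fr3.Fr.Main
import Fermat.Agent.Lib.MLT.Fr3.Fr.Ops
import Fermat.Agent.Lib.MLT.Fr3.Fr.Red
import Fermat.Agent.Lib.MLT.Fr3.Fr.ToolB
import Fermat.Agent.Lib.MLT.Fr3.Hm.ChiPart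
import Fermat.Agent.Lib.MLT.Fr3.Hm.Ctrl
import Fermat.Agent.Lib.MLT.Fr3.Hm.Dia
import Fermat.Agent.Lib.MLT.Fr3.Hm.Nil
import Fermat.Agent.Lib.MLT.Fr3.Hm.Part
import Fermat.Agent.Lib.MLT.Fr3.Hm.PartT
import Fermat.Agent.Lib.MLT.Fr3.Hm.Rank
import Fermat.Agent.Lib.MLT.Fr3.Hm.Top
import Fermat.Agent.Lib.Ihara.Hm.LvlTW

set_option autoImplicit false
set_option linter.unusedSectionVars false
set_option linter.unusedVariables false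
set_option linter.style.haveILetI false

namespace Fermat.Agent.Ihara

open Polynomial IsLocalRing
open Matrix MatrixGroups CongruenceSubgroup ModularCurve ModularCurve.Period Module
open Fermat.Agent.DS Fermat.Agent.T1 Fermat.Agent.T1G Fermat.Agent.T2

local notation "Qbar" => AlgebraicClosure ℚ
local notation "GQ" => (AlgebraicClosure ℚ ≃ₐ[ℚ] AlgebraicClosure ℚ)

section LvlTW

variable (O : Type) [CommRing O] [IsDomain O] [IsDiscreteValuationRing O] [CharZero O]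
  [IsAdicComplete (IsLocalRing.maximalIdeal O) O]

/-- **[LVL], one-call form** -/
theorem jhm_lvl_free_TW (ρbar : ResidualGaloisRep (ResidueField O))
    (habs : ρbar.IsAbsolutelyIrreducible) (S : Finset ℕ) (θ₀ : ℕ → O)
    (hfrob : ∀ (ℓ : ℕ), ℓ.Prime → ℓ ∉ S →
      ∀ P : ValuationSubring Qbar, P.LiesOverPrime ℓ → ∀ σ : GQ, P.IsFrobeniusAt σ ℓ →
        LinearMap.charpoly (ρbar.ρ σ) =
          X ^ 2 - C (residue O (θ₀ ℓ)) * X + C ((ℓ : ResidueField O)))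
    {p : ℕ} (hpO : (p : O) ∈ maximalIdeal O)
    (N : ℕ) [NeZero N] (hSN : ∀ ℓ : ℕ, ℓ.Prime → ℓ ∣ N → ℓ ∈ S)
    (Q : List ℕ) (hnd : Q.Nodup)
    (hQ : ∀ r ∈ Q, r.Prime ∧ r ∉ S ∧ p ∣ r - 1 ∧ Fermat.Agent.TW.IsTWPrime ρbar r)
    (M : ℕ) [NeZero M] (hM : 6 ≤ M) (hMQ : M = Q.foldl (· * ·) N)
    (H : Subgroup (ZMod M)ˣ) (hL : JhfLevel p M H)
    (Ps : Set ℕ) (hPs : ∀ ℓ : ℕ, ℓ.Prime → ℓ ∉ S → ℓ ∈ Ps) :
    ∃ θ bq : ℕ → O,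
      (∀ ℓ, ℓ ∉ Q → θ ℓ = θ₀ ℓ) ∧
      (∀ r ∈ Q, θ r + bq r = θ₀ r) ∧
      (∀ r ∈ Q, θ r * bq r = ((r : ℕ) : O) ∧ IsUnit (θ r) ∧ IsUnit (θ r - bq r) ∧
        IsUnit (1 - θ r ^ 2)) ∧
      (∀ r ∈ Q, ∀ P : ValuationSubring Qbar, P.LiesOverPrime r → ∀ φ : GQ, P.IsFrobeniusAt φ r →
        LinearMap.charpoly (ρbar.ρ φ)
          = (X - C (residue O (θ r))) * (X - C (residue O (bq r)))) ∧
      (∀ r ∈ Q, residue O (θ r) ≠ residue O (bq r)) ∧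
      (ihmPart O M H Ps θ = ⊥ ↔ ih4Part O N Ps θ₀ = ⊥) ∧
      (∃ (w : Fin (Module.finrank O ↥(ih4Part O N Ps θ₀)) → IhmPartT O M H Ps θ)
        (b : Module.Basis (Fin (Module.finrank O ↥(ih4Part O N Ps θ₀)) × ((ZMod M)ˣ ⧸ H)) O
          (IhmPartT O M H Ps θ)),
        (∀ i δ, b (i, δ) = ihmPartTDia O M hM H Ps θ δ (w i)) ∧
        ∀ (Δ₁' : Subgroup ((ZMod M)ˣ ⧸ H)) (χ' : Δ₁' →* O) (Δ₂' : Subgroup ((ZMod M)ˣ ⧸ H)),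
          IsCompl Δ₁' Δ₂' →
          ∃ b' : Module.Basis (Fin (Module.finrank O ↥(ih4Part O N Ps θ₀)) × Δ₂') O
              (IhmChiPart O M hM H Ps θ Δ₁' χ'),
            ∀ i (g : Δ₂'), b' (i, g)
              = ihmChiDia O M hM H Ps θ Δ₁' χ' (g : (ZMod M)ˣ ⧸ H)
                  (ihmChiPartMk O M hM H Ps θ Δ₁' χ' (w i))) ∧
      (∀ (Δ₁' : Subgroup ((ZMod M)ˣ ⧸ H)) (χ' : Δ₁' →* O),
        Module.Free O (IhmChiPart O M hM H Ps θ Δ₁' χ') ∧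
        Module.Finite O (IhmChiPart O M hM H Ps θ Δ₁' χ') ∧
        (ih4Part O N Ps θ₀ ≠ ⊥ → Nontrivial (IhmChiPart O M hM H Ps θ Δ₁' χ'))) := by
  classical
  obtain ⟨θ, bq, hoff, hsum, hθQ, hshift, hcp, hne⟩ :=
    ihm_exists_thetaQ O ρbar S θ₀ hfrob hpO Q hQ
  -- the non-Eisenstein prime, outside `S`, `Q` and the primes of `M`
  obtain ⟨ℓ₀, hℓ₀, hℓ₀S, hℓ₀T, hu⟩ :=
    ihm_exists_nonEis O ρbar habs S (Q.toFinset ∪ M.primeFactors) θ₀ hfrob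
  have hℓ₀Q : ℓ₀ ∉ Q := fun h => hℓ₀T (Finset.mem_union_left _ (List.mem_toFinset.mpr h))
  have hℓ₀M : ¬ ℓ₀ ∣ M := fun h =>
    hℓ₀T (Finset.mem_union_right _ (Nat.mem_primeFactors.mpr ⟨hℓ₀, h, NeZero.ne M⟩))
  have hℓ₀Ps : ℓ₀ ∈ Ps := hPs ℓ₀ hℓ₀ hℓ₀S
  have hθ : IsUnit (θ ℓ₀ - ((ℓ₀ : O) + 1)) := by rw [hoff ℓ₀ hℓ₀Q]; exact hu
  have hQ' : ∀ r ∈ Q, r.Prime ∧ ¬ r ∣ N := fun r hr =>
    ⟨(hQ r hr).1, fun h => (hQ r hr).2.1 (hSN r (hQ r hr).1 h)⟩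
  have hPsQ : ∀ r ∈ Q, r ∈ Ps := fun r hr => hPs r (hQ r hr).1 (hQ r hr).2.1
  have hbot := jhm_lvl_eq_bot_iff O M hM H Ps θ hL hpO hℓ₀ hℓ₀M hℓ₀Ps hθ N Q hMQ hnd hQ' hPsQ bq hθQ
  have hfree := jhm_lvl_free O M hM H Ps θ hL hpO hℓ₀ hℓ₀M hℓ₀Ps hθ N Q hMQ hnd hQ' hPsQ bq hθQ
  rw [hshift] at hbot hfree
  refine ⟨θ, bq, hoff, hsum, hθQ, hcp, hne, hbot, hfree, fun Δ₁' χ' => ?_⟩
  obtain ⟨w, b, hb, -⟩ := hfree
  obtain ⟨b', -⟩ := ihm_chi_basis (ihm_quot_comm M H) (ihmPartTDia O M hM H Ps θ) Δ₁' χ' w b hb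
    (fun x => Quotient.out x) (fun x => QuotientGroup.out_eq' x)
  refine ⟨Module.Free.of_basis b', inferInstance, fun hne0 => ?_⟩
  have hpos : 0 < Module.finrank O ↥(ih4Part O N Ps θ₀) := by
    by_contra h0
    have h0' : Module.finrank O ↥(ih4Part O N Ps θ₀) = 0 := by omega
    apply hne0
    rw [← hbot, ← Submodule.subsingleton_iff_eq_bot]
    haveI : IsEmpty (Fin (Module.finrank O ↥(ih4Part O N Ps θ₀)) × ((ZMod M)ˣ ⧸ H)) := by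
      rw [h0']
      exact Prod.isEmpty_left
    show Subsingleton (IhmPartT O M H Ps θ)
    exact b.repr.toEquiv.subsingleton
  exact ⟨⟨b' (⟨0, hpos⟩, ((1 : (ZMod M)ˣ ⧸ H) : ((ZMod M)ˣ ⧸ H) ⧸ Δ₁')), 0, b'.ne_zero _⟩⟩

end LvlTW

end Fermat.Agent.Ihara
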